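import Fermat.Agent.Two.Class.Quad
import Mathlib.NumberTheory.NumberField.InfinitePlace.TotallyRealComplex
import Mathlib.Data.Nat.Factorization.Basic

/-!
# The quadratic field of an auxiliary curve

For a `TwoCurve`, the discriminant is minus the bad level times a square, so `quadField W` is the
imaginary quadratic field generated by a square root of minus the bad level.
-/

set_option autoImplicit false

noncomputable section

namespace Fermat.Agent.Two.Basic

open Fermat.Agent.Deform NumberField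

local notation "Q̄" => AlgebraicClosure ℚ

variable {W : WeierstrassCurve ℤ}

/-- The discriminant is minus the bad level times a square. -/
theorem exists_discr_eq (hW : TwoCurve W) :
    ∃ s : ℕ, 0 < s ∧ W.Δ = -((badLevel W : ℤ) * (s : ℤ) ^ 2) := by
  have hn0 : W.Δ.natAbs ≠ 0 := Int.natAbs_ne_zero.mpr hW.Δ_ne_zero
  refine ⟨∏ q ∈ W.Δ.natAbs.primeFactors, q ^ (padicValInt q W.Δ / 2),
    Finset.prod_pos fun q hq => pow_pos (Nat.prime_of_mem_primeFactors hq).pos _, ?_⟩
  have hkey : W.Δ.natAbs = badLevel W *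
      (∏ q ∈ W.Δ.natAbs.primeFactors, q ^ (padicValInt q W.Δ / 2)) ^ 2 := by
    conv_lhs => rw [← Nat.prod_factorization_pow_eq_self hn0, Finsupp.prod,
      Nat.support_factorization]
    rw [badLevel, ← Finset.prod_pow, ← Finset.prod_mul_distrib]
    refine Finset.prod_congr rfl fun q hq => ?_
    obtain ⟨hqp, hqd, -⟩ := Nat.mem_primeFactors.mp hq
    obtain ⟨j, hj⟩ := hW.odd_val q hqp (Int.natCast_dvd.mpr hqd)
    rw [hj, Nat.factorization_def _ hqp, show padicValNat q W.Δ.natAbs = 2 * j + 1 from hj,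
      show (2 * j + 1) / 2 = j by omega, ← pow_mul, ← pow_succ', mul_comm j 2]
  have h : (W.Δ.natAbs : ℤ) = -W.Δ := Int.ofNat_natAbs_of_nonpos hW.Δ_neg.le
  rw [hkey, Nat.cast_mul, Nat.cast_pow] at h
  linarith

/-- The bad level is at least thirteen. -/
theorem thirteen_le_badLevel (hW : TwoCurve W) : 13 ≤ badLevel W := by
  obtain ⟨ℓ, hℓ, h12, hd⟩ := hW.exists_bad_one_mod_twelve
  have h := Nat.le_of_dvd (badLevel_pos W) ((prime_dvd_badLevel_iff hW.Δ_ne_zero hℓ).mpr hd)
  have := hℓ.two_le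
  omega

/-- A square root of minus the bad level generates `quadField W` and detects `galK W`. -/
theorem exists_delta (hW : TwoCurve W) :
    ∃ δ : Q̄, δ ^ 2 = -(badLevel W : Q̄) ∧ quadField W = IntermediateField.adjoin ℚ {δ} ∧
      (∀ σ : Gal, σ δ = δ ∨ σ δ = -δ) ∧ ∀ σ : Gal, σ ∈ galK W ↔ σ δ = δ := by
  obtain ⟨s, hs, hΔ⟩ := exists_discr_eq hW
  have hs0 : (s : Q̄) ≠ 0 := Nat.cast_ne_zero.mpr hs.ne'
  obtain ⟨δ, hδ⟩ := IsAlgClosed.exists_pow_nat_eq (-(badLevel W : Q̄)) two_pos
  have hsq : ∀ y : Q̄, y ^ 2 = (W.Δ : Q̄) ↔ y = (s : Q̄) * δ ∨ y = -((s : Q̄) * δ) := by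
    intro y
    rw [← sq_eq_sq_iff_eq_or_eq_neg, mul_pow, hδ, hΔ]
    push_cast
    constructor <;> intro h <;> linear_combination h
  have hset : {y : Q̄ | y ^ 2 = (W.Δ : Q̄)} ⊆ IntermediateField.adjoin ℚ {δ} := by
    intro y hy
    have hm : (s : Q̄) * δ ∈ IntermediateField.adjoin ℚ {δ} :=
      mul_mem (natCast_mem _ s) (IntermediateField.mem_adjoin_simple_self ℚ δ)
    rcases (hsq y).mp hy with rfl | rfl
    · exact hm
    · exact neg_mem hm
  have heq : quadField W = IntermediateField.adjoin ℚ {δ} := by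
    refine le_antisymm (IntermediateField.adjoin_le_iff.mpr hset)
      (IntermediateField.adjoin_simple_le_iff.mpr ?_)
    have hm : (s : Q̄) * δ ∈ quadField W :=
      IntermediateField.subset_adjoin ℚ _ ((hsq _).mpr (Or.inl rfl))
    rw [show δ = (s : Q̄)⁻¹ * ((s : Q̄) * δ) by rw [inv_mul_cancel_left₀ hs0]]
    exact mul_mem (inv_mem (natCast_mem _ s)) hm
  refine ⟨δ, hδ, heq, fun σ => ?_, fun σ => ?_⟩
  · rw [← sq_eq_sq_iff_eq_or_eq_neg, ← map_pow, hδ, map_neg, map_natCast]
  · rw [Class.mem_galK_iff]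
    constructor
    · intro h
      have h1 := h _ ((hsq _).mpr (Or.inl rfl))
      rw [map_mul, map_natCast] at h1
      exact mul_left_cancel₀ hs0 h1
    · intro h y hy
      rcases (hsq y).mp hy with rfl | rfl <;> simp [h]

/-- `quadField W` is quadratic. -/
theorem finrank_quadField (hW : TwoCurve W) : Module.finrank ℚ (quadField W) = 2 := by
  obtain ⟨δ, hδ, heq, -, hK⟩ := exists_delta hW
  rw [heq, IntermediateField.adjoin.finrank (Algebra.IsIntegral.isIntegral δ)]
  set q : Polynomial ℚ := Polynomial.X ^ 2 + Polynomial.C (badLevel W : ℚ) with hq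
  have hqm : q.Monic := Polynomial.monic_X_pow_add_C _ two_ne_zero
  have hle : (minpoly ℚ δ).natDegree ≤ 2 := by
    refine (Polynomial.natDegree_le_of_dvd (minpoly.dvd ℚ δ ?_) hqm.ne_zero).trans
      (Polynomial.natDegree_X_pow_add_C.le)
    simp [hq, hδ]
  refine le_antisymm hle ((minpoly.two_le_natDegree_iff (Algebra.IsIntegral.isIntegral δ)).mpr ?_)
  rintro ⟨r, rfl⟩
  obtain ⟨g, hg⟩ := Class.exists_notMem_galK hW.Δ_neg
  exact hg ((hK g).mpr (g.commutes r))

/-- `quadField W` has no real place. -/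
theorem isTotallyComplex_quadField (hW : TwoCurve W) : IsTotallyComplex (quadField W) := by
  refine ⟨fun w => ?_⟩
  by_contra h
  rw [InfinitePlace.not_isComplex_iff_isReal, InfinitePlace.isReal_iff] at h
  obtain ⟨δ, hδ, heq, -, -⟩ := exists_delta hW
  have hm : δ ∈ quadField W := heq ▸ IntermediateField.mem_adjoin_simple_self ℚ δ
  have hd : (⟨δ, hm⟩ : quadField W) ^ 2 = -(badLevel W : quadField W) := Subtype.ext (by simpa using hδ)
  set φ := ComplexEmbedding.IsReal.embedding h
  have h2 := congrArg φ hd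
  rw [map_pow, map_neg, map_natCast] at h2
  have h3 : (0 : ℝ) ≤ φ ⟨δ, hm⟩ ^ 2 := sq_nonneg _
  rw [h2] at h3
  have h4 : (13 : ℝ) ≤ (badLevel W : ℝ) := by exact_mod_cast thirteen_le_badLevel hW
  linarith

/-- `quadField W` has one infinite place. -/
theorem subsingleton_infinitePlace (hW : TwoCurve W) :
    Subsingleton (InfinitePlace (quadField W)) := by
  have := isTotallyComplex_quadField hW
  have h := InfinitePlace.card_add_two_mul_card_eq_rank (quadField W)
  rw [IsTotallyComplex.nrRealPlaces_eq_zero, finrank_quadField hW] at h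
  refine Fintype.card_le_one_iff_subsingleton.mp ?_
  rw [InfinitePlace.card_eq_nrRealPlaces_add_nrComplexPlaces, IsTotallyComplex.nrRealPlaces_eq_zero]
  omega

end Fermat.Agent.Two.Basic

end
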